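/-
GATE-F / GF-SHAPE, the `chi_ne` binder (helper96): the mod-`p` cyclotomic character is nontrivial
on the inertia group of a valuation subring `A | p` of `ℚ̄` (`p` odd).
-/
import Fermat.Agent.GJ.CycChar
import Fermat.Agent.GL.Local.TameZeta

set_option autoImplicit false
set_option linter.unusedSectionVars false

namespace Fermat.Agent.GF.Shape.Cyc

open Fermat.Agent.Common_helper32 Fermat.Agent.GJ.CycChar Fermat.Agent.GL.Local.InertiaField

/-- `ω ≠ 1` on `I_A` for `A | p`, `p` odd. -/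
theorem exists_inertia_cyc_ne_one {p : ℕ} [Fact p.Prime] (hp2 : p ≠ 2) (A : ValuationSubring Qb)
    (hA : (p : Qb) ∈ A.nonunits) :
    ∃ σ ∈ A.inertiaSubgroupIn ℚ, ((cyc p σ : (ZMod p)ˣ) : ZMod p) ≠ 1 := by
  have hp : p.Prime := Fact.out
  obtain ⟨ζ, hζ⟩ := exists_primitiveRoot p
  have h2 : ¬ p ∣ 2 := by
    intro h
    have := (Nat.prime_dvd_prime_iff_eq hp Nat.prime_two).mp h
    exact hp2 this
  obtain ⟨σ, hσ, hσζ⟩ := exists_mem_inertia_apply_zeta A hp hA hζ h2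
  refine ⟨σ, hσ, ?_⟩
  have h3 : ((cyc p σ : (ZMod p)ˣ) : ZMod p) = ((2 : ℕ) : ZMod p) :=
    (cyc_eq_natCast_iff hζ σ 2).mpr hσζ
  rw [h3]
  intro h
  have h4 : ((2 : ℕ) : ZMod p) = ((1 : ℕ) : ZMod p) := by rw [h, Nat.cast_one]
  rw [ZMod.natCast_eq_natCast_iff, Nat.ModEq] at h4
  have h5 : 2 ≤ p := hp.two_le
  have h6 : 3 ≤ p := by omega
  rw [Nat.mod_eq_of_lt (by omega), Nat.mod_eq_of_lt (by omega)] at h4
  omega

end Fermat.Agent.GF.Shape.Cyc
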