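/-
GATE-F / GF-SHAPE (S1 of GRAPH v1), abstract linear core (helper96).  Mathlib only.

A plane `Y` over a field with a family of operators `T i`, `i ∈ I` (inertia), and a subspace `L`
(`= Y₀ ∩ M⁰`) such that
  (U)   `(T i - 1) Y ⊆ L`,   [SS] `L ≠ ⊤`,   (det) some `det (T i) ≠ 1`.
Then `L` is a LINE, every `T i` acts on `L` by the scalar `det (T i)` and trivially on `Y / L`.
-/
import Mathlib

set_option autoImplicit false
set_option linter.unusedSectionVars false

open Module

namespace Fermat.Agent.GF.Shape.Core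

variable {k : Type*} [Field k] {Y : Type*} [AddCommGroup Y] [Module k Y]

/-- (U) + [SS] + (det) ⟹ `L` is a line. -/
theorem finrank_eq_one {ι : Type*} (I : Set ι) (T : ι → Module.End k Y) (L : Submodule k Y)
    (hfin : finrank k Y = 2)
    (hU : ∀ i ∈ I, ∀ y : Y, T i y - y ∈ L) (hSS : L ≠ ⊤)
    (hdet : ∃ i ∈ I, LinearMap.det (T i) ≠ 1) : finrank k L = 1 := by
  have : FiniteDimensional k Y := FiniteDimensional.of_finrank_pos (by omega)
  have hle : finrank k L ≤ 2 := hfin ▸ Submodule.finrank_le L
  have h2 : finrank k L ≠ 2 := by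
    intro h
    apply hSS
    exact Submodule.eq_top_of_finrank_eq (h.trans hfin.symm)
  have h0 : finrank k L ≠ 0 := by
    intro h
    have hbot : L = ⊥ := Submodule.finrank_eq_zero.mp h
    obtain ⟨i, hi, hd⟩ := hdet
    apply hd
    have hT : T i = 1 := by
      refine LinearMap.ext fun y => ?_
      have := hU i hi y
      rw [hbot, Submodule.mem_bot, sub_eq_zero] at this
      rw [this, Module.End.one_apply]
    rw [hT]
    exact LinearMap.det_id
  omega

/-- an operator of a plane which is `≡ 1` modulo a line `L` acts on `L` by its determinant. -/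
theorem apply_eq_det_smul (T : Module.End k Y) (L : Submodule k Y)
    (hfin : finrank k Y = 2) (hL : finrank k L = 1)
    (hU : ∀ y : Y, T y - y ∈ L) : ∀ x ∈ L, T x = LinearMap.det T • x := by
  have : FiniteDimensional k Y := FiniteDimensional.of_finrank_pos (by omega)
  -- a generator of `L`
  obtain ⟨⟨w, hwL⟩, hw0, hspan⟩ := finrank_eq_one_iff'.mp hL
  have hw0' : w ≠ 0 := fun h => hw0 (Subtype.ext h)
  have hLw : ∀ x ∈ L, ∃ c : k, c • w = x := by
    intro x hx
    obtain ⟨c, hc⟩ := hspan ⟨x, hx⟩
    exact ⟨c, congrArg Subtype.val hc⟩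
  -- a vector outside `L`
  have hne : L ≠ ⊤ := by
    intro h
    rw [h, finrank_top, hfin] at hL
    omega
  obtain ⟨y, -, hyL⟩ := SetLike.exists_of_lt (lt_top_iff_ne_top.mpr hne)
  -- the basis `(w, y)`
  have hli : LinearIndependent k ![w, y] := by
    rw [LinearIndependent.pair_iff]
    intro a b hab
    have hb : b = 0 := by
      by_contra hb
      apply hyL
      have : y = (-(b⁻¹ * a)) • w := by
        have h1 : b • y = -(a • w) := by
          rw [eq_neg_iff_add_eq_zero, add_comm]; exact hab
        have h2 : y = b⁻¹ • (b • y) := by rw [smul_smul, inv_mul_cancel₀ hb, one_smul]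
        rw [h2, h1, smul_neg, smul_smul, neg_smul]
      rw [this]
      exact L.smul_mem _ hwL
    rw [hb, zero_smul, add_zero] at hab
    exact ⟨(smul_eq_zero.mp hab).resolve_right hw0', hb⟩
  let b : Basis (Fin 2) k Y :=
    basisOfLinearIndependentOfCardEqFinrank hli (by rw [Fintype.card_fin, hfin])
  have hb0 : b 0 = w := by
    simp [b, coe_basisOfLinearIndependentOfCardEqFinrank]
  have hb1 : b 1 = y := by
    simp [b, coe_basisOfLinearIndependentOfCardEqFinrank]
  -- the matrix of `T`
  obtain ⟨lam, hlam⟩ := hLw (T w - w) (hU w)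
  obtain ⟨mu, hmu⟩ := hLw (T y - y) (hU y)
  have hTw : T w = (lam + 1) • b 0 := by
    rw [hb0, add_smul, one_smul, hlam]; abel
  have hTy : T y = mu • b 0 + b 1 := by
    rw [hb0, hb1, hmu]; abel
  have hdet : LinearMap.det T = lam + 1 := by
    rw [← LinearMap.det_toMatrix b, Matrix.det_fin_two]
    simp only [LinearMap.toMatrix_apply]
    rw [hb0, hb1, hTw, hTy]
    simp
  intro x hx
  obtain ⟨c, rfl⟩ := hLw x hx
  rw [map_smul, hdet, hTw, hb0, smul_smul, smul_smul, mul_comm]

end Fermat.Agent.GF.Shape.Core
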