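/-
GATE-F / GF-SHAPE (S1 of GRAPH v1), ambient form (helper96).  Mathlib only.

`V` an `𝔽_p`-module with a linear action `ρ` of a group `G`, `I ≤ G` (inertia), `Y₀ ≤ V` an
`I`-stable plane, `M⁰` an additive subgroup of `V`, `χ : G → 𝔽_p` (the cyclotomic character) with
  (U)   `ρ σ y - y ∈ M⁰`            (`σ ∈ I`, `y ∈ Y₀`),
  [SS]  `Y₀ ⊄ M⁰`,
  (det) `det (ρ σ | Y₀) = χ σ` (`σ ∈ I`),  `χ ≠ 1` on `I`.
Then `L₀ := Y₀ ∩ M⁰ = 𝔽_p w₀` is a line, `ρ σ w₀ = χ σ • w₀` and `ρ σ y - y = κ_y(σ) • w₀` for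
`σ ∈ I`, `y ∈ Y₀`, with the cocycle rule `κ_y(σ τ) = κ_y(σ) + χ(σ) κ_y(τ)`.
-/
import Fermat.Agent.GF.Shape.Core

set_option autoImplicit false
set_option linter.unusedSectionVars false

open Module

namespace Fermat.Agent.GF.Shape.Sub

open Fermat.Agent.GF.Shape.Core

variable {p : ℕ} [Fact p.Prime] {V : Type*} [AddCommGroup V] [Module (ZMod p) V]
  {G : Type*} [Group G]

/-- the hypotheses of S1. -/
structure ShapeHyp (ρ : G →* Module.End (ZMod p) V) (I : Subgroup G)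
    (Y₀ : Submodule (ZMod p) V) (M₀ : AddSubgroup V) (χ : G → ZMod p) : Prop where
  stab : ∀ σ ∈ I, ∀ y ∈ Y₀, ρ σ y ∈ Y₀
  finrank_eq : finrank (ZMod p) Y₀ = 2
  unip : ∀ σ ∈ I, ∀ y ∈ Y₀, ρ σ y - y ∈ M₀
  not_le : ¬ (Y₀ : Set V) ⊆ M₀
  det_eq : ∀ σ (hσ : σ ∈ I), LinearMap.det ((ρ σ).restrict (stab σ hσ)) = χ σ
  chi_ne : ∃ σ ∈ I, χ σ ≠ 1

variable {ρ : G →* Module.End (ZMod p) V} {I : Subgroup G} {Y₀ : Submodule (ZMod p) V}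
  {M₀ : AddSubgroup V} {χ : G → ZMod p}

/-- **S1**: the line `L₀ = Y₀ ∩ M⁰ = 𝔽_p w₀`. -/
theorem ShapeHyp.exists_line (H : ShapeHyp ρ I Y₀ M₀ χ) :
    ∃ w₀ : V, w₀ ∈ Y₀ ∧ w₀ ∈ M₀ ∧ w₀ ≠ 0 ∧
      (∀ y ∈ Y₀, y ∈ M₀ → ∃ c : ZMod p, y = c • w₀) ∧
      (∀ σ ∈ I, ρ σ w₀ = χ σ • w₀) ∧
      (∀ σ ∈ I, ∀ y ∈ Y₀, ∃ c : ZMod p, ρ σ y - y = c • w₀) := by
  classical
  set L : Submodule (ZMod p) Y₀ :=
    (AddSubgroup.toZModSubmodule p M₀).comap Y₀.subtype with hL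
  have hmemL : ∀ y : Y₀, y ∈ L ↔ (y : V) ∈ M₀ := fun y => Iff.rfl
  let T : I → Module.End (ZMod p) Y₀ := fun σ => (ρ σ.1).restrict (H.stab σ.1 σ.2)
  have hU : ∀ σ ∈ (Set.univ : Set I), ∀ y : Y₀, T σ y - y ∈ L := by
    intro σ _ y
    rw [hmemL]
    exact H.unip σ.1 σ.2 y y.2
  have hSS : L ≠ ⊤ := by
    intro h
    apply H.not_le
    intro y hy
    have : (⟨y, hy⟩ : Y₀) ∈ L := by rw [h]; trivial
    exact (hmemL _).1 this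
  have hdet : ∃ σ ∈ (Set.univ : Set I), LinearMap.det (T σ) ≠ 1 := by
    obtain ⟨σ, hσ, hχ⟩ := H.chi_ne
    exact ⟨⟨σ, hσ⟩, trivial, by rw [H.det_eq σ hσ]; exact hχ⟩
  have h1 : finrank (ZMod p) L = 1 := finrank_eq_one Set.univ T L H.finrank_eq hU hSS hdet
  obtain ⟨⟨w, hwL⟩, hw0, hspan⟩ := finrank_eq_one_iff'.mp h1
  have hw0' : (w : V) ≠ 0 := fun h => hw0 (Subtype.ext (Subtype.ext h))
  have hLw : ∀ x ∈ L, ∃ c : ZMod p, x = c • w := by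
    intro x hx
    obtain ⟨c, hc⟩ := hspan ⟨x, hx⟩
    exact ⟨c, (congrArg Subtype.val hc).symm⟩
  refine ⟨(w : V), w.2, (hmemL w).1 hwL, hw0', ?_, ?_, ?_⟩
  · intro y hy hyM
    obtain ⟨c, hc⟩ := hLw ⟨y, hy⟩ ((hmemL _).2 hyM)
    exact ⟨c, congrArg Subtype.val hc⟩
  · intro σ hσ
    have := apply_eq_det_smul (T ⟨σ, hσ⟩) L H.finrank_eq h1 (hU ⟨σ, hσ⟩ trivial) w hwL
    rw [H.det_eq σ hσ] at this
    exact congrArg Subtype.val this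
  · intro σ hσ y hy
    obtain ⟨c, hc⟩ := hLw (T ⟨σ, hσ⟩ ⟨y, hy⟩ - ⟨y, hy⟩) (hU ⟨σ, hσ⟩ trivial ⟨y, hy⟩)
    exact ⟨c, congrArg Subtype.val hc⟩

/-- the line `L₀ = 𝔽_p w₀` with the function `κ` : `ρ σ y - y = κ y σ • w₀`. -/
structure LineData (ρ : G →* Module.End (ZMod p) V) (I : Subgroup G)
    (Y₀ : Submodule (ZMod p) V) (M₀ : AddSubgroup V) (χ : G → ZMod p) where
  w₀ : V
  mem_Y : w₀ ∈ Y₀
  mem_M : w₀ ∈ M₀
  ne_zero : w₀ ≠ 0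
  span : ∀ y ∈ Y₀, y ∈ M₀ → ∃ c : ZMod p, y = c • w₀
  act : ∀ σ ∈ I, ρ σ w₀ = χ σ • w₀
  kappa : V → G → ZMod p
  kappa_spec : ∀ σ ∈ I, ∀ y ∈ Y₀, ρ σ y - y = kappa y σ • w₀

theorem ShapeHyp.nonempty_lineData (H : ShapeHyp ρ I Y₀ M₀ χ) :
    Nonempty (LineData ρ I Y₀ M₀ χ) := by
  classical
  obtain ⟨w₀, hY, hM, h0, hspan, hact, hk⟩ := H.exists_line
  refine ⟨⟨w₀, hY, hM, h0, hspan, hact,
    fun y σ => if h : σ ∈ I ∧ y ∈ Y₀ then Classical.choose (hk σ h.1 y h.2) else 0, ?_⟩⟩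
  intro σ hσ y hy
  rw [dif_pos ⟨hσ, hy⟩]
  exact Classical.choose_spec (hk σ hσ y hy)

namespace LineData

variable (D : LineData ρ I Y₀ M₀ χ)

theorem smul_w₀_injective {a b : ZMod p} (h : a • D.w₀ = b • D.w₀) : a = b := by
  have h1 : (a - b) • D.w₀ = 0 := by rw [sub_smul, h, sub_self]
  rcases smul_eq_zero.mp h1 with h2 | h2
  · exact sub_eq_zero.mp h2
  · exact absurd h2 D.ne_zero

theorem kappa_unique {σ : G} (hσ : σ ∈ I) {y : V} (hy : y ∈ Y₀) {c : ZMod p}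
    (h : ρ σ y - y = c • D.w₀) : D.kappa y σ = c :=
  D.smul_w₀_injective ((D.kappa_spec σ hσ y hy).symm.trans h)

/-- `κ_{w₀}(σ) = χ σ - 1`. -/
theorem kappa_w₀ {σ : G} (hσ : σ ∈ I) : D.kappa D.w₀ σ = χ σ - 1 :=
  D.kappa_unique hσ D.mem_Y (by rw [D.act σ hσ, sub_smul, one_smul])

/-- additivity in `y`. -/
theorem kappa_add {σ : G} (hσ : σ ∈ I) {y y' : V} (hy : y ∈ Y₀) (hy' : y' ∈ Y₀) :
    D.kappa (y + y') σ = D.kappa y σ + D.kappa y' σ := by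
  refine D.kappa_unique hσ (Y₀.add_mem hy hy') ?_
  rw [map_add, add_smul, ← D.kappa_spec σ hσ y hy, ← D.kappa_spec σ hσ y' hy']
  abel

/-- the (twisted) cocycle rule `κ_y(σ τ) = κ_y(σ) + χ(σ) κ_y(τ)`. -/
theorem kappa_mul {σ τ : G} (hσ : σ ∈ I) (hτ : τ ∈ I) {y : V} (hy : y ∈ Y₀) :
    D.kappa y (σ * τ) = D.kappa y σ + χ σ * D.kappa y τ := by
  refine D.kappa_unique (I.mul_mem hσ hτ) hy ?_
  have h1 : ρ (σ * τ) y - y = ρ σ (ρ τ y - y) + (ρ σ y - y) := by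
    rw [map_mul, Module.End.mul_apply, map_sub]
    abel
  rw [h1, D.kappa_spec τ hτ y hy, map_smul, D.act σ hσ, D.kappa_spec σ hσ y hy, smul_smul,
    add_smul, add_comm, mul_comm]

/-- on `I' = I ∩ ker χ` (i.e. `χ σ = 1`) the map `κ_y` is additive and `w₀` is fixed. -/
theorem kappa_mul_of_chi_eq_one {σ τ : G} (hσ : σ ∈ I) (hτ : τ ∈ I) (hχ : χ σ = 1) {y : V}
    (hy : y ∈ Y₀) : D.kappa y (σ * τ) = D.kappa y σ + D.kappa y τ := by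
  rw [D.kappa_mul hσ hτ hy, hχ, one_mul]

theorem act_of_chi_eq_one {σ : G} (hσ : σ ∈ I) (hχ : χ σ = 1) : ρ σ D.w₀ = D.w₀ := by
  rw [D.act σ hσ, hχ, one_smul]

/-- `y ∈ Y₀` is fixed by `σ ∈ I` iff `κ_y(σ) = 0`. -/
theorem apply_eq_self_iff {σ : G} (hσ : σ ∈ I) {y : V} (hy : y ∈ Y₀) :
    ρ σ y = y ↔ D.kappa y σ = 0 := by
  constructor
  · intro h
    exact D.kappa_unique hσ hy (by rw [h, sub_self, zero_smul])
  · intro h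
    have := D.kappa_spec σ hσ y hy
    rwa [h, zero_smul, sub_eq_zero] at this

end LineData

end Fermat.Agent.GF.Shape.Sub
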