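/-
GATE-F / GF-SHAPE, the PLUG on the modular side (helper96).

`V = Kum_p(F_N)` (`Additive (Kum ℚ̄ F_N p)`, Galois action `KumType.gal N p`), `A | q ∥ N`:
* `M0Kum N A h m` : the pull-back of `M⁰_m ⊆ J₀(N)[m]` (GS/F) along the equivariant Kummer
  isomorphism `kumTorsionBy`;
* `gal_sub_mem_M0Kum` : **(U)** in the `Kum` vocabulary;
* `shapeHyp_kum` : `ShapeHyp` for a plane `Y₀ ⊆ Kum_p(F_N)` from the remaining binders
  (stability, `finrank = 2`, `det = ω`, [SS]); (U) and `ω ≠ 1` on inertia are discharged.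
-/
import Fermat.Agent.GF.Shape.Sub
import Fermat.Agent.GF.Shape.Cyc
import Fermat.Agent.GS.F.Modular
import Fermat.Agent.GH.S32.KumEquivariant

set_option autoImplicit false
set_option linter.unusedSectionVars false

noncomputable section

namespace Fermat.Agent.GF.Shape.Plug

open AlgebraicCurve ModularCurve Fermat.Agent.GJ.KumGroup Fermat.Agent.GJ.Kum
open Fermat.Agent.GS.F Fermat.Agent.GH.S32.KumEquivariant Fermat.Agent.GK.SS Fermat.Agent.GK.AL
open Fermat.Agent.GF.Shape.Sub Fermat.Agent.GF.Shape.Cyc Fermat.Agent.GJ.CycChar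

local notation "Qb" => AlgebraicClosure ℚ
local notation "GQ" => (AlgebraicClosure ℚ ≃ₐ[ℚ] AlgebraicClosure ℚ)

variable (N : ℕ) [NeZero N] (A : ValuationSubring Qb) {q : ℕ} (h : ExactDvd q N)

/-- the Kummer isomorphism followed by the inclusion `J₀(N)[m] ⊆ J₀(N)(ℚ̄)`. -/
def kumJ (m : ℕ) [NeZero m] : Additive (Kum Qb (FK N) m) →+ JZero N :=
  (Submodule.torsionBy ℤ (JZero N) (m : ℤ)).subtype.toAddMonoidHom.comp
    (kumTorsionBy N m).toAddMonoidHom

theorem kumJ_apply (m : ℕ) [NeZero m] (x : Additive (Kum Qb (FK N) m)) :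
    kumJ N m x = ((kumTorsionBy N m x : ↥(Submodule.torsionBy ℤ (JZero N) (m : ℤ))) : JZero N) :=
  rfl

theorem kumJ_gal (m : ℕ) [NeZero m] (σ : GQ) (x : Additive (Kum Qb (FK N) m)) :
    kumJ N m (KumType.gal N m σ x) = σ • kumJ N m x :=
  kumTorsionBy_gal N m σ x

theorem kumJ_injective (m : ℕ) [NeZero m] : Function.Injective (kumJ N m) := by
  intro x y hxy
  apply (kumTorsionBy N m).injective
  exact Subtype.ext hxy

theorem smul_kumJ_eq_zero (m : ℕ) [NeZero m] (x : Additive (Kum Qb (FK N) m)) :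
    (m : ℤ) • kumJ N m x = 0 := by
  have := (kumTorsionBy N m x).2
  rwa [Submodule.mem_torsionBy_iff] at this

/-- **`M⁰_m` inside `Kum_m(F_N)`.** -/
def M0Kum (m : ℕ) [NeZero m] : AddSubgroup (Additive (Kum Qb (FK N) m)) :=
  (M0mod N A h m).comap (kumJ N m)

variable {N A h}

theorem mem_M0Kum {m : ℕ} [NeZero m] {x : Additive (Kum Qb (FK N) m)} :
    x ∈ M0Kum N A h m ↔ kumJ N m x ∈ M0mod N A h m := Iff.rfl

/-- **(U)** on `Kum_m(F_N)`: inertia at `A | q ∥ N` moves every class into `M⁰_m`. -/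
theorem gal_sub_mem_M0Kum (hA : A.LiesOverPrime q) {m : ℕ} [NeZero m] {σ : GQ}
    (hσ : σ ∈ A.inertiaSubgroupIn ℚ) (x : Additive (Kum Qb (FK N) m)) :
    KumType.gal N m σ x - x ∈ M0Kum N A h m := by
  rw [mem_M0Kum, map_sub, kumJ_gal]
  exact smul_sub_mem_M0mod hA hσ (smul_kumJ_eq_zero N m x)

/-- **the PLUG**: `ShapeHyp` on `Kum_p(F_N)` at `A | p ∥ N`, `p` odd; the open binders are the
`I_A`-stability, the dimension and the determinant of the plane (GF-SETUP) and [SS]. -/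
theorem shapeHyp_kum {p : ℕ} [Fact p.Prime] (hp2 : p ≠ 2) (hN : ExactDvd p N)
    (hA : A.LiesOverPrime p)
    (Y₀ : Submodule (ZMod p) (Additive (Kum Qb (FK N) p)))
    (hstab : ∀ σ ∈ A.inertiaSubgroupIn ℚ, ∀ y ∈ Y₀, KumType.gal N p σ y ∈ Y₀)
    (hfin : Module.finrank (ZMod p) Y₀ = 2)
    (hdet : ∀ σ (hσ : σ ∈ A.inertiaSubgroupIn ℚ),
      LinearMap.det ((KumType.gal N p σ).restrict (hstab σ hσ)) =
        ((cyc p σ : (ZMod p)ˣ) : ZMod p))
    (hSS : ¬ (Y₀ : Set (Additive (Kum Qb (FK N) p))) ⊆ M0Kum N A hN p) :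
    ShapeHyp (KumType.gal N p) (A.inertiaSubgroupIn ℚ) Y₀ (M0Kum N A hN p)
      (fun σ => ((cyc p σ : (ZMod p)ˣ) : ZMod p)) where
  stab := hstab
  finrank_eq := hfin
  unip := fun σ hσ y _ => gal_sub_mem_M0Kum hA hσ y
  not_le := hSS
  det_eq := hdet
  chi_ne := by
    have hp : p.Prime := Fact.out
    refine exists_inertia_cyc_ne_one hp2 A ?_
    exact (Fermat.Agent.S05.natCast_mem_nonunits_iff hp hA p).2 dvd_rfl

end Fermat.Agent.GF.Shape.Plug
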