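/-
GATE-F / GF-SS-SHAPE (helper96): B1 of helper40 (board 5894) — the three-case argument that
discharges the binder [SS] `not_le` of `ShapeHyp`.  Mathlib only (plus GF/Shape/{Core,Sub}).

`Y₀` an `I`-stable plane with `det (ρ σ | Y₀) = χ σ` on `I`, `χ ≠ 1` on `I`.  Suppose that under
the hypothesis `Y₀ ⊆ M⁰` there is an additive map `c : Y₀ → H` into an `𝔽_p`-module with
`c (ρ σ y) = χ σ • c y` for `σ ∈ I` (the graph cocycle).  Put `Z := ker c`.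
* `dim Z = 0` : `I` acts on `Y₀` by the scalars `χ σ`, so `det = χ²`, and `χ² ≠ χ` somewhere on `I`;
* `dim Z = 1` : `I` acts by `χ` on `Y₀ / Z`, hence trivially on `Z ⊆ M⁰` : excluded by (CE);
* `dim Z = 2` : `c = 0` on `Y₀` : excluded by (K0).
Hence `¬ Y₀ ⊆ M⁰`.
-/
import Fermat.Agent.GF.Shape.Sub

set_option autoImplicit false
set_option linter.unusedSectionVars false

open Module

namespace Fermat.Agent.GF.Shape.SS

open Fermat.Agent.GF.Shape.Core Fermat.Agent.GF.Shape.Sub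

section Core

variable {k : Type*} [Field k] {Y : Type*} [AddCommGroup Y] [Module k Y]
  {H : Type*} [AddCommGroup H] [Module k H]

/-- `dim Z = 0` : an injective `a`-semi-invariant map forces `T = a • id`, so `det T = a ^ 2`. -/
theorem det_eq_sq_of_injective (T : Module.End k Y) (c : Y →ₗ[k] H) (a : k)
    (hfin : finrank k Y = 2) (hc : ∀ y, c (T y) = a • c y) (hinj : Function.Injective c) :
    LinearMap.det T = a ^ 2 := by
  have hT : T = a • (LinearMap.id : Y →ₗ[k] Y) := by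
    ext y
    apply hinj
    rw [hc, LinearMap.smul_apply, LinearMap.id_apply, map_smul]
  rw [hT, LinearMap.det_smul, hfin, LinearMap.det_id, mul_one]

/-- `dim Z = 1` : `T` acts on the line `ker c` by the scalar `a⁻¹ * det T`. -/
theorem apply_eq_of_finrank_ker (T : Module.End k Y) (c : Y →ₗ[k] H) (a : k) (ha : a ≠ 0)
    (hfin : finrank k Y = 2) (hc : ∀ y, c (T y) = a • c y)
    (hker : finrank k (LinearMap.ker c) = 1) :
    ∀ z ∈ LinearMap.ker c, T z = (a⁻¹ * LinearMap.det T) • z := by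
  intro z hz
  set U : Module.End k Y := a⁻¹ • T with hU
  have hUL : ∀ y : Y, U y - y ∈ LinearMap.ker c := by
    intro y
    rw [LinearMap.mem_ker, map_sub, hU, LinearMap.smul_apply, map_smul, hc, smul_smul,
      inv_mul_cancel₀ ha, one_smul, sub_self]
  have h1 := apply_eq_det_smul U (LinearMap.ker c) hfin hker hUL z hz
  rw [hU, LinearMap.det_smul, hfin, LinearMap.smul_apply] at h1
  have h2 : T z = a • (a⁻¹ • T z) := by rw [smul_smul, mul_inv_cancel₀ ha, one_smul]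
  rw [h2, h1, smul_smul]
  congr 1
  field_simp

end Core

variable {p : ℕ} [Fact p.Prime] {V : Type*} [AddCommGroup V] [Module (ZMod p) V]
  {G : Type*} [Group G]
  {ρ : G →* Module.End (ZMod p) V} {I : Subgroup G} {Y₀ : Submodule (ZMod p) V}
  {χ : G → ZMod p} {H : Type*} [AddCommGroup H] [Module (ZMod p) H]

/-- the determinant on a stable finite-dimensional subspace is nonzero. -/
theorem det_restrict_ne_zero (stab : ∀ σ ∈ I, ∀ y ∈ Y₀, ρ σ y ∈ Y₀) {σ : G} (hσ : σ ∈ I) :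
    LinearMap.det ((ρ σ).restrict (stab σ hσ)) ≠ 0 := by
  intro h0
  have hcomp : ((ρ σ).restrict (stab σ hσ)) * ((ρ σ⁻¹).restrict (stab σ⁻¹ (I.inv_mem hσ))) = 1 := by
    ext y
    change ρ σ (ρ σ⁻¹ y) = y
    rw [← Module.End.mul_apply, ← map_mul, mul_inv_cancel, map_one, Module.End.one_apply]
  have := congrArg LinearMap.det hcomp
  rw [map_mul, h0, zero_mul, map_one] at this
  exact zero_ne_one this

/-- **[SS], weak (K0) + (CE) form** (the three cases of helper40 5894 B1). -/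
theorem not_le_of_ce (M₀ : AddSubgroup V)
    (stab : ∀ σ ∈ I, ∀ y ∈ Y₀, ρ σ y ∈ Y₀)
    (hfin : finrank (ZMod p) Y₀ = 2)
    (hdet : ∀ σ (hσ : σ ∈ I), LinearMap.det ((ρ σ).restrict (stab σ hσ)) = χ σ)
    (hχ : ∃ σ ∈ I, χ σ ≠ 1)
    (hce : ∀ w ∈ M₀, (∀ σ ∈ I, ρ σ w = w) → w = 0)
    (hc : (Y₀ : Set V) ⊆ M₀ → ∃ c : Y₀ →+ H,
      (∀ σ (hσ : σ ∈ I) (y : Y₀), c ⟨ρ σ y, stab σ hσ y y.2⟩ = χ σ • c y) ∧ ∃ y, c y ≠ 0) :
    ¬ (Y₀ : Set V) ⊆ M₀ := by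
  intro hle
  obtain ⟨c₀, hceq, y₁, hy₁⟩ := hc hle
  have : FiniteDimensional (ZMod p) Y₀ := FiniteDimensional.of_finrank_pos (by omega)
  set c : Y₀ →ₗ[ZMod p] H := AddMonoidHom.toZModLinearMap p c₀ with hcdef
  have hcc : ∀ y, c y = c₀ y := fun _ => rfl
  let T : ∀ σ, σ ∈ I → Module.End (ZMod p) Y₀ := fun σ hσ => (ρ σ).restrict (stab σ hσ)
  have hT : ∀ σ (hσ : σ ∈ I) (y : Y₀), c (T σ hσ y) = χ σ • c y := fun σ hσ y => hceq σ hσ y
  have hχ0 : ∀ σ (hσ : σ ∈ I), χ σ ≠ 0 := fun σ hσ => by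
    rw [← hdet σ hσ]; exact det_restrict_ne_zero stab hσ
  obtain ⟨σ₀, hσ₀, hσ₀χ⟩ := hχ
  have hle2 : finrank (ZMod p) (LinearMap.ker c) ≤ 2 := hfin ▸ Submodule.finrank_le _
  have hcases : finrank (ZMod p) (LinearMap.ker c) = 0 ∨ finrank (ZMod p) (LinearMap.ker c) = 1 ∨
      finrank (ZMod p) (LinearMap.ker c) = 2 := by omega
  rcases hcases with h0 | h1 | h2
  · -- `c` injective : `det = χ ^ 2`
    have hinj : Function.Injective c := by
      rw [← LinearMap.ker_eq_bot]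
      exact Submodule.finrank_eq_zero.mp h0
    have := det_eq_sq_of_injective (T σ₀ hσ₀) c (χ σ₀) hfin (hT σ₀ hσ₀) hinj
    rw [hdet σ₀ hσ₀] at this
    apply hσ₀χ
    have h3 : χ σ₀ * (χ σ₀ - 1) = 0 := by rw [mul_sub, mul_one, ← sq, ← this, sub_self]
    rcases mul_eq_zero.mp h3 with h4 | h4
    · exact absurd h4 (hχ0 σ₀ hσ₀)
    · exact sub_eq_zero.mp h4
  · -- a line fixed by `I` inside `M⁰`
    obtain ⟨⟨z, hzL⟩, hz0, -⟩ := finrank_eq_one_iff'.mp h1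
    have hz0' : (z : V) ≠ 0 := fun h => hz0 (Subtype.ext (Subtype.ext h))
    apply hz0'
    refine hce (z : V) (hle z.2) ?_
    intro σ hσ
    have := apply_eq_of_finrank_ker (T σ hσ) c (χ σ) (hχ0 σ hσ) hfin (hT σ hσ) h1 z hzL
    rw [hdet σ hσ, inv_mul_cancel₀ (hχ0 σ hσ), one_smul] at this
    exact congrArg Subtype.val this
  · -- `c = 0`
    have htop : LinearMap.ker c = ⊤ := Submodule.eq_top_of_finrank_eq (h2.trans hfin.symm)
    apply hy₁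
    rw [← hcc, ← LinearMap.mem_ker, htop]
    trivial

/-- **[SS], full (K0) form**: with `c` injective on `Y₀` no (CE) is needed. -/
theorem not_le_of_injective (M₀ : AddSubgroup V)
    (stab : ∀ σ ∈ I, ∀ y ∈ Y₀, ρ σ y ∈ Y₀)
    (hfin : finrank (ZMod p) Y₀ = 2)
    (hdet : ∀ σ (hσ : σ ∈ I), LinearMap.det ((ρ σ).restrict (stab σ hσ)) = χ σ)
    (hχ : ∃ σ ∈ I, χ σ ≠ 1)
    (hc : (Y₀ : Set V) ⊆ M₀ → ∃ c : Y₀ →+ H,
      (∀ σ (hσ : σ ∈ I) (y : Y₀), c ⟨ρ σ y, stab σ hσ y y.2⟩ = χ σ • c y) ∧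
        ∀ y, c y = 0 → y = 0) :
    ¬ (Y₀ : Set V) ⊆ M₀ := by
  intro hle
  obtain ⟨c₀, hceq, hK0⟩ := hc hle
  have : FiniteDimensional (ZMod p) Y₀ := FiniteDimensional.of_finrank_pos (by omega)
  set c : Y₀ →ₗ[ZMod p] H := AddMonoidHom.toZModLinearMap p c₀ with hcdef
  have hinj : Function.Injective c := by
    rw [← LinearMap.ker_eq_bot, Submodule.eq_bot_iff]
    intro y hy
    exact hK0 y hy
  obtain ⟨σ₀, hσ₀, hσ₀χ⟩ := hχ
  have hχ0 : χ σ₀ ≠ 0 := by rw [← hdet σ₀ hσ₀]; exact det_restrict_ne_zero stab hσ₀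
  have := det_eq_sq_of_injective ((ρ σ₀).restrict (stab σ₀ hσ₀)) c (χ σ₀) hfin
    (fun y => hceq σ₀ hσ₀ y) hinj
  rw [hdet σ₀ hσ₀] at this
  apply hσ₀χ
  have h3 : χ σ₀ * (χ σ₀ - 1) = 0 := by rw [mul_sub, mul_one, ← sq, ← this, sub_self]
  rcases mul_eq_zero.mp h3 with h4 | h4
  · exact absurd h4 hχ0
  · exact sub_eq_zero.mp h4

/-- `ShapeHyp` with the binder [SS] discharged by the cocycle `c` (weak (K0) + (CE)). -/
theorem shapeHyp_of_cocycle (M₀ : AddSubgroup V)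
    (stab : ∀ σ ∈ I, ∀ y ∈ Y₀, ρ σ y ∈ Y₀)
    (hfin : finrank (ZMod p) Y₀ = 2)
    (unip : ∀ σ ∈ I, ∀ y ∈ Y₀, ρ σ y - y ∈ M₀)
    (hdet : ∀ σ (hσ : σ ∈ I), LinearMap.det ((ρ σ).restrict (stab σ hσ)) = χ σ)
    (hχ : ∃ σ ∈ I, χ σ ≠ 1)
    (hce : ∀ w ∈ M₀, (∀ σ ∈ I, ρ σ w = w) → w = 0)
    (hc : (Y₀ : Set V) ⊆ M₀ → ∃ c : Y₀ →+ H,
      (∀ σ (hσ : σ ∈ I) (y : Y₀), c ⟨ρ σ y, stab σ hσ y y.2⟩ = χ σ • c y) ∧ ∃ y, c y ≠ 0) :
    ShapeHyp ρ I Y₀ M₀ χ :=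
  ⟨stab, hfin, unip, not_le_of_ce M₀ stab hfin hdet hχ hce hc, hdet, hχ⟩

end Fermat.Agent.GF.Shape.SS
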