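/-
GATE-F / GF-SS (helper57): **[SS] `Y₀ ⊄ M⁰` IN THE ORDINARY SHAPE IS A COROLLARY OF (CE)** —
no graph cocycle, no (K0)/COC-INJ, no [TORIC-ω], no Weil pairing.

(CE) on main (`GS/Top/FramePlug.hasCE_of_frameNode`, S33 closure) is the FULL connected–étale
statement: for EVERY `I`-stable subgroup `N`, a point `w ∈ M⁰` with `(σ − 1) w ∈ N` for all `σ ∈ I`
lies in `N` (i.e. no subquotient of `M⁰` has a non-zero `I`-fixed vector).  If the plane `Y₀` has the
ORDINARY shape at `A` — an `I`-stable subgroup `L` with `(σ − 1) Y₀ ⊆ L` (`σ ∈ I`) and `Y₀ ⊄ L`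
(e.g. `L` a line: the Tate curve `⟨ζ⟩ ⊂ E_q[p]` for S44, the `aug` line of
`GP/Flat/CasesFlat.cases_of_isFlatAt` for S40) — then `Y₀ ⊆ M⁰` would give, by (CE) with `N := L`,
`Y₀ ⊆ L`.  Hence `¬ Y₀ ⊆ M⁰`.

* `not_le_of_hasCE`        : the abstract statement (any group action by additive maps);
* `hasCE_M0Kum`            : (CE) transported to `Kum_p(F_N)` along `kumJ`, `A | p ∥ N`, `p` odd;
* `not_le_M0Kum_of_ord`    : the field `not_le` of `GF/Top/ProviderInst.FieldsAt` from the shape.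
-/
import Fermat.Agent.GF.Shape.Plug
import Fermat.Agent.GS.Top.FramePlug
import Fermat.Agent.GS.Top.FrameNodeAll

set_option autoImplicit false
set_option linter.unusedSectionVars false

noncomputable section

namespace Fermat.Agent.GF.Shape.SSOrd

open AlgebraicCurve ModularCurve Fermat.Agent.GJ.KumGroup Fermat.Agent.GJ.Kum
open Fermat.Agent.GS.F Fermat.Agent.GS.Old Fermat.Agent.GK.AL
open Fermat.Agent.GF.Shape.Plug

local notation "Qb" => AlgebraicClosure ℚ
local notation "GQ" => (AlgebraicClosure ℚ ≃ₐ[ℚ] AlgebraicClosure ℚ)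

/-! ### abstract -/

section Abstract

variable {G M : Type*} [AddCommGroup M]

/-- **[SS] from (CE) and the ordinary shape.** -/
theorem not_le_of_hasCE {I : Set G} {act : G → M → M} {W : AddSubgroup M}
    (hce : HasCE I act W) (Y L : AddSubgroup M)
    (hL : ∀ g ∈ I, ∀ u ∈ L, act g u ∈ L)
    (hord : ∀ g ∈ I, ∀ y ∈ Y, act g y - y ∈ L)
    (hne : ¬ Y ≤ L) : ¬ Y ≤ W := by
  intro hle
  apply hne
  intro y hy
  exact hce L hL y (hle hy) (fun g hg => hord g hg y hy)

/-- (CE) passes along an equivariant injective additive map (pull-back of `W`). -/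
theorem hasCE_comap {M' : Type*} [AddCommGroup M'] {I : Set G} {act : G → M → M}
    {act' : G → M' → M'} (j : M' →+ M) (hj : Function.Injective j)
    (hjeq : ∀ g x, j (act' g x) = act g (j x)) {W : AddSubgroup M} (hce : HasCE I act W) :
    HasCE I act' (W.comap j) := by
  intro N hN w hw hwN
  have hmem : j w ∈ N.map j := by
    refine hce (N.map j) ?_ (j w) hw ?_
    · rintro g hg _ ⟨u, hu, rfl⟩
      exact ⟨act' g u, hN g hg u hu, hjeq g u⟩
    · intro g hg
      exact ⟨act' g w - w, hwN g hg, by rw [map_sub, hjeq]⟩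
  obtain ⟨w', hw', hww'⟩ := hmem
  rw [← hj hww']
  exact hw'

end Abstract

/-! ### on `Kum_p(F_N)` -/

variable {N : ℕ} [NeZero N] {A : ValuationSubring Qb} {p : ℕ} [Fact p.Prime]

/-- **(CE) for `M⁰_p ⊆ Kum_p(F_N)`**, `A | p ∥ N`, `p` odd (`2 ∣ N` if `p = 3`). -/
theorem hasCE_M0Kum (hp2 : p ≠ 2) (hN : ExactDvd p N) (hside : p = 3 → 2 ∣ N)
    (hA : A.LiesOverPrime p) :
    HasCE (↑(A.inertiaSubgroupIn ℚ) : Set GQ)
      (fun (σ : GQ) (x : Additive (Kum Qb (FK N) p)) => KumType.gal N p σ x)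
      (M0Kum N A hN p) := by
  have h1 := Fermat.Agent.GS.Top.FramePlug.hasCE_of_frameNode hp2 hN
    (Fermat.Agent.GS.Top.FrameNodeAll.frameNode_all p N hN hp2 hside) A hA
  exact hasCE_comap (kumJ N p) (kumJ_injective N p) (fun σ x => kumJ_gal N p σ x) h1

/-- **the field `not_le` ([SS]) from the ordinary shape of `Y₀` at `A`.** -/
theorem not_le_M0Kum_of_ord (hp2 : p ≠ 2) (hN : ExactDvd p N) (hside : p = 3 → 2 ∣ N)
    (hA : A.LiesOverPrime p)
    (Y₀ : Submodule (ZMod p) (Additive (Kum Qb (FK N) p)))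
    (L : AddSubgroup (Additive (Kum Qb (FK N) p)))
    (hL : ∀ σ ∈ A.inertiaSubgroupIn ℚ, ∀ u ∈ L, KumType.gal N p σ u ∈ L)
    (hord : ∀ σ ∈ A.inertiaSubgroupIn ℚ, ∀ y ∈ Y₀, KumType.gal N p σ y - y ∈ L)
    (hne : ¬ (Y₀ : Set (Additive (Kum Qb (FK N) p))) ⊆ L) :
    ¬ (Y₀ : Set (Additive (Kum Qb (FK N) p))) ⊆ M0Kum N A hN p := by
  have h := not_le_of_hasCE (hasCE_M0Kum hp2 hN hside hA) Y₀.toAddSubgroup L hL
    (fun σ hσ y hy => hord σ hσ y hy) (fun hle => hne (fun y hy => hle hy))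
  exact fun hle => h (fun y hy => hle hy)

end Fermat.Agent.GF.Shape.SSOrd
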